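import Mathlib

/-!
# FROB, piece (D): the abstract density induction

Pure analysis / combinatorics, no number fields.  For coefficient functions on the primes we
write `pSeries c s = ∑_l c(l) l^{-s}` and `LogAsymp c κ` for
`pSeries c s = κ · log (1/(s-1)) + O(1)` as `s → 1⁺`.

Main result `exists_prime_of_divisor_sums`: if `c m = ∑_{d ∣ m} w d` outside a finite set of
primes and `LogAsymp (c m) m` for all `m ∣ n`, then `w n` is nonzero at infinitely many primes
(Möbius inversion through `∑_{d ∣ m} φ(d) = m`).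
-/

set_option autoImplicit false

namespace Fermat.Agent.Lib.Frob.H644

open Filter Topology Asymptotics

/-- The comparison function `log (1/(s-1))`. -/
noncomputable def logF (s : ℝ) : ℝ := Real.log (1 / (s - 1))

/-- The prime Dirichlet series `∑_l c(l) l^{-s}`. -/
noncomputable def pSeries (c : Nat.Primes → ℝ) (s : ℝ) : ℝ :=
  ∑' l : Nat.Primes, c l * ((l : ℕ) : ℝ) ^ (-s)

/-- `pSeries c s = κ log(1/(s-1)) + O(1)` as `s → 1⁺`. -/
def LogAsymp (c : Nat.Primes → ℝ) (κ : ℝ) : Prop :=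
  (fun s => pSeries c s - κ * logF s) =O[𝓝[>] (1:ℝ)] (fun _ => (1:ℝ))

/-- Bounded coefficient functions. -/
def BddCoeff (c : Nat.Primes → ℝ) : Prop := ∃ B, ∀ l, |c l| ≤ B

theorem BddCoeff.add {c₁ c₂ : Nat.Primes → ℝ} (h₁ : BddCoeff c₁) (h₂ : BddCoeff c₂) :
    BddCoeff (fun l => c₁ l + c₂ l) := by
  obtain ⟨B₁, hB₁⟩ := h₁
  obtain ⟨B₂, hB₂⟩ := h₂
  exact ⟨B₁ + B₂, fun l => (abs_add_le _ _).trans (add_le_add (hB₁ l) (hB₂ l))⟩

theorem BddCoeff.neg {c : Nat.Primes → ℝ} (h : BddCoeff c) : BddCoeff (fun l => - c l) := by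
  obtain ⟨B, hB⟩ := h
  exact ⟨B, fun l => by rw [abs_neg]; exact hB l⟩

theorem BddCoeff.sub {c₁ c₂ : Nat.Primes → ℝ} (h₁ : BddCoeff c₁) (h₂ : BddCoeff c₂) :
    BddCoeff (fun l => c₁ l - c₂ l) := by
  simpa [sub_eq_add_neg] using h₁.add h₂.neg

theorem BddCoeff.zero : BddCoeff (fun _ => (0 : ℝ)) := ⟨0, fun _ => by simp⟩

theorem BddCoeff.sum {ι : Type*} (t : Finset ι) (c : ι → Nat.Primes → ℝ)
    (hc : ∀ i ∈ t, BddCoeff (c i)) : BddCoeff (fun l => ∑ i ∈ t, c i l) := by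
  classical
  induction t using Finset.induction_on with
  | empty => simpa using BddCoeff.zero
  | insert a t ha ih =>
    have h1 : BddCoeff (c a) := hc a (Finset.mem_insert_self a t)
    have h2 := ih (fun i hi => hc i (Finset.mem_insert_of_mem hi))
    simpa [Finset.sum_insert ha] using h1.add h2

theorem summable_term {c : Nat.Primes → ℝ} (hc : BddCoeff c) {s : ℝ} (hs : 1 < s) :
    Summable (fun l : Nat.Primes => c l * ((l : ℕ) : ℝ) ^ (-s)) := by
  obtain ⟨B, hB⟩ := hc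
  have h1 : Summable (fun l : Nat.Primes => B * ((l : ℕ) : ℝ) ^ (-s)) :=
    (Nat.Primes.summable_rpow.mpr (by linarith)).mul_left B
  refine Summable.of_norm_bounded h1 (fun l => ?_)
  rw [norm_mul, Real.norm_eq_abs, Real.norm_eq_abs,
    abs_of_nonneg (Real.rpow_nonneg (Nat.cast_nonneg _) _)]
  exact mul_le_mul_of_nonneg_right (hB l) (Real.rpow_nonneg (Nat.cast_nonneg _) _)

theorem pSeries_add {c₁ c₂ : Nat.Primes → ℝ} (h₁ : BddCoeff c₁) (h₂ : BddCoeff c₂) {s : ℝ}
    (hs : 1 < s) : pSeries (fun l => c₁ l + c₂ l) s = pSeries c₁ s + pSeries c₂ s := by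
  unfold pSeries
  simp_rw [add_mul]
  exact (summable_term h₁ hs).tsum_add (summable_term h₂ hs)

theorem pSeries_neg (c : Nat.Primes → ℝ) (s : ℝ) :
    pSeries (fun l => - c l) s = - pSeries c s := by
  unfold pSeries
  simp_rw [neg_mul]
  exact tsum_neg

theorem pSeries_sub {c₁ c₂ : Nat.Primes → ℝ} (h₁ : BddCoeff c₁) (h₂ : BddCoeff c₂) {s : ℝ}
    (hs : 1 < s) : pSeries (fun l => c₁ l - c₂ l) s = pSeries c₁ s - pSeries c₂ s := by
  simp_rw [sub_eq_add_neg]
  rw [pSeries_add h₁ h₂.neg hs, pSeries_neg]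

theorem pSeries_sum {ι : Type*} (t : Finset ι) (c : ι → Nat.Primes → ℝ)
    (hc : ∀ i ∈ t, BddCoeff (c i)) {s : ℝ} (hs : 1 < s) :
    pSeries (fun l => ∑ i ∈ t, c i l) s = ∑ i ∈ t, pSeries (c i) s := by
  unfold pSeries
  simp_rw [Finset.sum_mul]
  exact Summable.tsum_finsetSum (fun i hi => summable_term (hc i hi) hs)

theorem eventually_one_lt : ∀ᶠ s : ℝ in 𝓝[>] (1:ℝ), 1 < s :=
  eventually_mem_nhdsWithin

theorem rpow_neg_le_one (l : Nat.Primes) {s : ℝ} (hs : 0 ≤ s) : ((l : ℕ) : ℝ) ^ (-s) ≤ 1 := by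
  have h1 : (1 : ℝ) ≤ ((l : ℕ) : ℝ) := by exact_mod_cast l.2.one_lt.le
  exact Real.rpow_le_one_of_one_le_of_nonpos h1 (by linarith)

/-- A coefficient function of finite support has a bounded prime series. -/
theorem pSeries_isBigO_of_finite_support (c : Nat.Primes → ℝ) (T : Finset Nat.Primes)
    (h : ∀ l ∉ T, c l = 0) : (pSeries c) =O[𝓝[>] (1:ℝ)] (fun _ => (1:ℝ)) := by
  refine IsBigO.of_bound (∑ l ∈ T, |c l|) ?_
  filter_upwards [eventually_one_lt] with s hs
  have h1 : pSeries c s = ∑ l ∈ T, c l * ((l : ℕ) : ℝ) ^ (-s) := by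
    unfold pSeries
    exact tsum_eq_sum (fun l hl => by rw [h l hl, zero_mul])
  rw [h1, norm_one, mul_one, Real.norm_eq_abs]
  refine (Finset.abs_sum_le_sum_abs _ _).trans (Finset.sum_le_sum fun l _ => ?_)
  rw [abs_mul, abs_of_nonneg (Real.rpow_nonneg (Nat.cast_nonneg _) _)]
  calc |c l| * ((l : ℕ) : ℝ) ^ (-s) ≤ |c l| * 1 :=
        mul_le_mul_of_nonneg_left (rpow_neg_le_one l (by linarith)) (abs_nonneg _)
    _ = |c l| := mul_one _

theorem LogAsymp.add {c₁ c₂ : Nat.Primes → ℝ} {κ₁ κ₂ : ℝ} (h₁ : BddCoeff c₁) (h₂ : BddCoeff c₂)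
    (H₁ : LogAsymp c₁ κ₁) (H₂ : LogAsymp c₂ κ₂) :
    LogAsymp (fun l => c₁ l + c₂ l) (κ₁ + κ₂) := by
  unfold LogAsymp at *
  refine (H₁.add H₂).congr' ?_ EventuallyEq.rfl
  filter_upwards [eventually_one_lt] with s hs
  rw [pSeries_add h₁ h₂ hs]
  ring

theorem LogAsymp.neg {c : Nat.Primes → ℝ} {κ : ℝ} (H : LogAsymp c κ) :
    LogAsymp (fun l => - c l) (-κ) := by
  unfold LogAsymp at *
  refine H.neg_left.congr' ?_ EventuallyEq.rfl
  filter_upwards with s
  rw [pSeries_neg]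
  ring

theorem LogAsymp.sub {c₁ c₂ : Nat.Primes → ℝ} {κ₁ κ₂ : ℝ} (h₁ : BddCoeff c₁) (h₂ : BddCoeff c₂)
    (H₁ : LogAsymp c₁ κ₁) (H₂ : LogAsymp c₂ κ₂) :
    LogAsymp (fun l => c₁ l - c₂ l) (κ₁ - κ₂) := by
  simp_rw [sub_eq_add_neg]
  exact H₁.add h₁ h₂.neg H₂.neg

theorem LogAsymp.zero : LogAsymp (fun _ => (0 : ℝ)) 0 := by
  unfold LogAsymp
  have : (fun s => pSeries (fun _ => (0:ℝ)) s - 0 * logF s) = fun _ => (0 : ℝ) := by
    funext s
    simp [pSeries]
  rw [this]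
  exact isBigO_zero _ _

theorem LogAsymp.sum {ι : Type*} (t : Finset ι) (c : ι → Nat.Primes → ℝ) (κ : ι → ℝ)
    (hc : ∀ i ∈ t, BddCoeff (c i)) (H : ∀ i ∈ t, LogAsymp (c i) (κ i)) :
    LogAsymp (fun l => ∑ i ∈ t, c i l) (∑ i ∈ t, κ i) := by
  classical
  induction t using Finset.induction_on with
  | empty => simpa using LogAsymp.zero
  | insert a t ha ih =>
    have h1 := hc a (Finset.mem_insert_self a t)
    have h2 := BddCoeff.sum t c (fun i hi => hc i (Finset.mem_insert_of_mem hi))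
    have H1 := H a (Finset.mem_insert_self a t)
    have H2 := ih (fun i hi => hc i (Finset.mem_insert_of_mem hi))
      (fun i hi => H i (Finset.mem_insert_of_mem hi))
    simpa [Finset.sum_insert ha] using H1.add h1 h2 H2

/-- Changing finitely many coefficients does not change the asymptotics. -/
theorem LogAsymp.congr_finite {c c' : Nat.Primes → ℝ} (hc : BddCoeff c) (hc' : BddCoeff c')
    (T : Finset Nat.Primes) (h : ∀ l ∉ T, c l = c' l) {κ : ℝ} (H : LogAsymp c κ) :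
    LogAsymp c' κ := by
  have h0 : (pSeries fun l => c' l - c l) =O[𝓝[>] (1:ℝ)] (fun _ => (1:ℝ)) :=
    pSeries_isBigO_of_finite_support _ T (fun l hl => by rw [h l hl, sub_self])
  unfold LogAsymp at *
  refine (H.add h0).congr' ?_ EventuallyEq.rfl
  filter_upwards [eventually_one_lt] with s hs
  rw [pSeries_sub hc' hc hs]
  ring

theorem pSeries_const_mul (a : ℝ) (c : Nat.Primes → ℝ) (s : ℝ) :
    pSeries (fun l => a * c l) s = a * pSeries c s := by
  unfold pSeries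
  simp_rw [mul_assoc]
  exact tsum_mul_left

theorem LogAsymp.const_mul (a : ℝ) {c : Nat.Primes → ℝ} {κ : ℝ} (H : LogAsymp c κ) :
    LogAsymp (fun l => a * c l) (a * κ) := by
  unfold LogAsymp at *
  refine (H.const_mul_left a).congr' ?_ EventuallyEq.rfl
  filter_upwards with s
  rw [pSeries_const_mul]
  ring

/-- A coefficient function which agrees with a bounded one outside a finite set is bounded. -/
theorem BddCoeff.of_eq_outside {c c' : Nat.Primes → ℝ} (hc' : BddCoeff c')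
    (T : Finset Nat.Primes) (h : ∀ l ∉ T, c l = c' l) : BddCoeff c := by
  classical
  obtain ⟨B, hB⟩ := hc'
  refine ⟨B + ∑ l ∈ T, |c l|, fun l => ?_⟩
  have hsum : 0 ≤ ∑ l ∈ T, |c l| := Finset.sum_nonneg (fun _ _ => abs_nonneg _)
  by_cases hl : l ∈ T
  · have : |c l| ≤ ∑ l ∈ T, |c l| :=
      Finset.single_le_sum (f := fun l => |c l|) (fun _ _ => abs_nonneg _) hl
    have hB0 : 0 ≤ B := (abs_nonneg _).trans (hB l)
    linarith
  · rw [h l hl]
    linarith [hB l]

theorem tendsto_logF : Tendsto logF (𝓝[>] (1:ℝ)) atTop := by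
  unfold logF
  refine Real.tendsto_log_atTop.comp ?_
  have h1 : Tendsto (fun s : ℝ => s - 1) (𝓝[>] (1:ℝ)) (𝓝[>] (0:ℝ)) := by
    refine tendsto_nhdsWithin_of_tendsto_nhds_of_eventually_within _ ?_ ?_
    · have : Tendsto (fun s : ℝ => s - 1) (𝓝 (1:ℝ)) (𝓝 ((1:ℝ) - 1)) :=
        (continuous_id.sub continuous_const).tendsto 1
      rw [sub_self] at this
      exact this.mono_left nhdsWithin_le_nhds
    · filter_upwards [eventually_one_lt] with s hs
      exact Set.mem_Ioi.mpr (by linarith)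
  have h2 := tendsto_inv_nhdsGT_zero (𝕜 := ℝ)
  refine (h2.comp h1).congr (fun s => ?_)
  simp [one_div]

/-- A positive multiple of `log(1/(s-1))` is not bounded near `1⁺`. -/
theorem not_isBigO_mul_logF {κ : ℝ} (hκ : 0 < κ) :
    ¬ (fun s => κ * logF s) =O[𝓝[>] (1:ℝ)] (fun _ => (1:ℝ)) := by
  intro h
  obtain ⟨C, hC⟩ := h.bound
  have h1 : Tendsto (fun s => κ * logF s) (𝓝[>] (1:ℝ)) atTop :=
    tendsto_logF.const_mul_atTop hκ
  have h2 := (h1.eventually (eventually_gt_atTop C)).and hC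
  obtain ⟨s, hs1, hs2⟩ := h2.exists
  rw [norm_one, mul_one, Real.norm_eq_abs] at hs2
  exact absurd (le_abs_self _ |>.trans hs2) (not_le.mpr hs1)

/-- **Abstract density induction.**  If `c m = ∑_{d ∣ m} w d` away from a finite set of primes
and `∑_l c m l · l^{-s} = m · log(1/(s-1)) + O(1)` for all `m ∣ n`, then
`∑_l w m l · l^{-s} = φ(m) · log(1/(s-1)) + O(1)` for all `m ∣ n`. -/
theorem logAsymp_totient (n : ℕ) (w : ℕ → Nat.Primes → ℝ) (hw : ∀ d, BddCoeff (w d))
    (c : ℕ → Nat.Primes → ℝ) (hcb : ∀ m, m ∣ n → BddCoeff (c m)) (Bad : Finset Nat.Primes)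
    (hcw : ∀ m, m ∣ n → ∀ l ∉ Bad, c m l = ∑ d ∈ m.divisors, w d l)
    (hc : ∀ m, m ∣ n → LogAsymp (c m) m) :
    ∀ m, m ∣ n → 0 < m → LogAsymp (w m) (Nat.totient m) := by
  intro m
  induction m using Nat.strong_induction_on with
  | _ m ih =>
    intro hmn hm
    -- the divisor sum has asymptotics `m`
    have hA : LogAsymp (fun l => ∑ d ∈ m.divisors, w d l) m :=
      (hc m hmn).congr_finite (hcb m hmn) (BddCoeff.sum _ _ (fun d _ => hw d)) Bad (hcw m hmn)
    -- the proper divisors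
    have hB : LogAsymp (fun l => ∑ d ∈ m.properDivisors, w d l)
        (∑ d ∈ m.properDivisors, ((Nat.totient d : ℕ) : ℝ)) := by
      refine LogAsymp.sum _ _ _ (fun d _ => hw d) (fun d hd => ?_)
      rw [Nat.mem_properDivisors] at hd
      exact ih d hd.2 (hd.1.trans hmn) (Nat.pos_of_dvd_of_pos hd.1 hm)
    have hC := hA.sub (BddCoeff.sum _ _ (fun d _ => hw d)) (BddCoeff.sum _ _ (fun d _ => hw d)) hB
    have e1 : (fun l => (∑ d ∈ m.divisors, w d l) - ∑ d ∈ m.properDivisors, w d l) = w m := by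
      funext l
      rw [← Nat.cons_self_properDivisors hm.ne', Finset.sum_cons]
      ring
    have e2 : ((m : ℝ) - ∑ d ∈ m.properDivisors, ((Nat.totient d : ℕ) : ℝ)) =
        ((Nat.totient m : ℕ) : ℝ) := by
      have h := Nat.sum_totient m
      rw [← Nat.cons_self_properDivisors hm.ne', Finset.sum_cons] at h
      have h' : ((Nat.totient m : ℕ) : ℝ) + ∑ d ∈ m.properDivisors, ((Nat.totient d : ℕ) : ℝ)
          = (m : ℝ) := by exact_mod_cast h
      linarith
    rw [e1, e2] at hC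
    exact hC

/-- **Abstract density induction, existence form.**  Under the hypotheses of
`logAsymp_totient`, the coefficient function `w n` is nonzero at some prime outside any given
finite set. -/
theorem exists_prime_of_divisor_sums (n : ℕ) (hn : 0 < n) (w : ℕ → Nat.Primes → ℝ)
    (hw : ∀ d, BddCoeff (w d))
    (c : ℕ → Nat.Primes → ℝ) (hcb : ∀ m, m ∣ n → BddCoeff (c m)) (Bad : Finset Nat.Primes)
    (hcw : ∀ m, m ∣ n → ∀ l ∉ Bad, c m l = ∑ d ∈ m.divisors, w d l)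
    (hc : ∀ m, m ∣ n → LogAsymp (c m) m) (S : Finset Nat.Primes) :
    ∃ l, l ∉ S ∧ l ∉ Bad ∧ w n l ≠ 0 := by
  classical
  by_contra hcon
  push Not at hcon
  have h1 : LogAsymp (w n) (Nat.totient n) :=
    logAsymp_totient n w hw c hcb Bad hcw hc n dvd_rfl hn
  have h2 : (pSeries (w n)) =O[𝓝[>] (1:ℝ)] (fun _ => (1:ℝ)) := by
    refine pSeries_isBigO_of_finite_support _ (S ∪ Bad) (fun l hl => ?_)
    rw [Finset.mem_union, not_or] at hl
    exact hcon l hl.1 hl.2
  have h3 : (fun s => ((Nat.totient n : ℕ) : ℝ) * logF s) =O[𝓝[>] (1:ℝ)] (fun _ => (1:ℝ)) := by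
    unfold LogAsymp at h1
    refine (h2.sub h1).congr' ?_ EventuallyEq.rfl
    filter_upwards with s
    ring
  exact not_isBigO_mul_logF (by exact_mod_cast Nat.totient_pos.mpr hn) h3

end Fermat.Agent.Lib.Frob.H644
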