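import Fermat.Agent.Lib.Frob.H644.Primes

/-!
# FROB, piece (F): at an unramified prime the decomposition group is generated by Frobenius
-/

set_option autoImplicit false
set_option linter.unusedSectionVars false
set_option linter.style.haveILetI false

namespace Fermat.Agent.Lib.Frob.H644

open NumberField Ideal MulAction Polynomial
open scoped Pointwise

section iterate

variable {S : Type*} [CommRing S] {G : Type*} [Group G] [MulSemiringAction G S]

/-- Powers of a Frobenius element act as iterated Frobenius on the residue ring. -/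
theorem mk_pow_smul_of_isArithFrobAt {Q : Ideal S} {σ : G} (h : IsArithFrobAt ℤ σ Q) (k : ℕ)
    (x : S) :
    Ideal.Quotient.mk Q (σ ^ k • x) =
      (Ideal.Quotient.mk Q x) ^ (Nat.card (ℤ ⧸ Q.under ℤ) ^ k) := by
  induction k generalizing x with
  | zero => simp
  | succ k ih =>
    have h1 : Ideal.Quotient.mk Q (σ • x) = (Ideal.Quotient.mk Q x) ^ Nat.card (ℤ ⧸ Q.under ℤ) :=
      h.mk_apply x
    rw [pow_succ, mul_smul, ih, h1, ← pow_mul, pow_succ, mul_comm]

end iterate

section finiteField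

/-- If every element of a finite field `F` satisfies `y ^ (N ^ k) = y` with `N ≥ 2`, `k ≥ 1`,
then `|F| ≤ N ^ k`. -/
theorem card_le_of_forall_pow_eq {F : Type*} [Field F] [Fintype F] {N k : ℕ} (hN : 1 < N)
    (hk : k ≠ 0) (h : ∀ y : F, y ^ (N ^ k) = y) : Fintype.card F ≤ N ^ k := by
  classical
  have hne : (X ^ N ^ k - X : F[X]) ≠ 0 := FiniteField.X_pow_card_pow_sub_X_ne_zero F hk hN
  have hdeg : (X ^ N ^ k - X : F[X]).natDegree = N ^ k :=
    FiniteField.X_pow_card_pow_sub_X_natDegree_eq F hk hN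
  have hsub : (Finset.univ : Finset F).val ⊆ (X ^ N ^ k - X : F[X]).roots := by
    intro y _
    rw [mem_roots hne, IsRoot.def, eval_sub, eval_pow, eval_X, h y, sub_self]
  have := card_le_degree_of_subset_roots hsub
  rwa [hdeg, Finset.card_univ] at this

end finiteField

section main

variable {L : Type*} [Field L] [NumberField L]
variable {G : Type*} [Group G] [Finite G] [MulSemiringAction G L] [IsGaloisGroup G ℚ L]
variable (l : ℕ) [hl : Fact l.Prime]

local notation "𝔩" => (Ideal.span {(l : ℤ)} : Ideal ℤ)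

theorem card_int_quot_under (Q : Ideal (𝓞 L)) [Q.LiesOver 𝔩] :
    Nat.card (ℤ ⧸ Q.under ℤ) = l := by
  rw [← over_def Q 𝔩]
  exact Int.card_ideal_quot l

/-- The order of a Frobenius element at `Q` is at least the inertia degree of `Q`. -/
theorem inertiaDeg_le_orderOf (Q : Ideal (𝓞 L)) [Q.IsPrime] [Q.LiesOver 𝔩] (τ : G)
    (hτ : IsArithFrobAt ℤ τ Q) : Q.inertiaDeg ℤ ≤ orderOf τ := by
  haveI := isMaximal_of_liesOver (l := l) Q
  letI : Field (𝓞 L ⧸ Q) := Ideal.Quotient.field Q
  haveI : Finite (𝓞 L ⧸ Q) := Ring.HasFiniteQuotients.finiteQuotient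
    (Ideal.ne_bot_of_liesOver_of_ne_bot (span_prime_ne_bot l) Q)
  letI : Fintype (𝓞 L ⧸ Q) := Fintype.ofFinite _
  have hk : orderOf τ ≠ 0 := (orderOf_pos τ).ne'
  have h1 : ∀ y : 𝓞 L ⧸ Q, y ^ (l ^ orderOf τ) = y := by
    intro y
    obtain ⟨x, rfl⟩ := Ideal.Quotient.mk_surjective y
    have := mk_pow_smul_of_isArithFrobAt hτ (orderOf τ) x
    rw [pow_orderOf_eq_one, one_smul, card_int_quot_under l Q] at this
    exact this.symm
  have h2 := card_le_of_forall_pow_eq hl.out.one_lt hk h1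
  have h3 : Fintype.card (𝓞 L ⧸ Q) = l ^ Q.inertiaDeg ℤ := by
    rw [← Nat.card_eq_fintype_card, ← Submodule.cardQuot_apply, ← absNorm_apply,
      absNorm_eq_pow_inertiaDeg' (p := l) Q hl.out, inertiaDeg'_eq_inertiaDeg]
  rw [h3] at h2
  exact (Nat.pow_le_pow_iff_right hl.out.one_lt).mp h2

/-- At an unramified prime, the decomposition group is generated by any Frobenius element. -/
theorem zpowers_eq_stabilizer_of_isArithFrobAt (hram : (𝔩).ramificationIdxIn (𝓞 L) = 1)
    (Q : Ideal (𝓞 L)) [Q.IsPrime] [Q.LiesOver 𝔩] (τ : G) (hτ : IsArithFrobAt ℤ τ Q) :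
    Subgroup.zpowers τ = stabilizer G Q := by
  refine Subgroup.eq_of_le_of_card_ge ?_ ?_
  · rw [Subgroup.zpowers_le]
    exact hτ.mem_stabilizer
  · rw [Nat.card_zpowers, card_stabilizer_eq 𝔩 Q, hram, one_mul,
      inertiaDegIn_eq_inertiaDeg 𝔩 Q G]
    exact inertiaDeg_le_orderOf l Q τ hτ

/-- Existence of a Frobenius element at a prime over `l`. -/
theorem exists_isArithFrobAt (Q : Ideal (𝓞 L)) [Q.IsPrime] [Q.LiesOver 𝔩] :
    ∃ τ : G, IsArithFrobAt ℤ τ Q := by
  haveI : Finite (𝓞 L ⧸ Q) := Ring.HasFiniteQuotients.finiteQuotient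
    (Ideal.ne_bot_of_liesOver_of_ne_bot (span_prime_ne_bot l) Q)
  exact IsArithFrobAt.exists_of_isInvariant ℤ G Q

end main

end Fermat.Agent.Lib.Frob.H644
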