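import Fermat.Agent.Lib.Frob.H644.FrobGen
import Fermat.Agent.Lib.Frob.H644.Density

/-!
# FROB: Frobenius' density theorem (existence form), number field level

`L/ℚ` a finite Galois extension with group `G`, `g ∈ G`, `S` a finite set of primes.  Assuming the
analytic input (F1) `∑_{N(I) = l prime} l^{-s} = log (1/(s-1)) + O(1)` for every subfield of `L`,
there are a prime number `l ∉ S`, unramified in `L`, a prime `Q` of `𝓞 L` over `l` and a
Frobenius element `τ` at `Q` with `⟨τ⟩ = ⟨g⟩`.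
-/

set_option autoImplicit false
set_option linter.unusedSectionVars false
set_option linter.style.haveILetI false
set_option warn.classDefReducibility false

namespace Fermat.Agent.Lib.Frob.H644

open NumberField Ideal MulAction
open scoped Pointwise

/-- The number of ideals of `𝓞 M` of norm `l` (the `l`-th coefficient of the Dedekind zeta
function of `M`), as a real-valued function on the primes. -/
noncomputable def normCount (M : Type*) [Field M] [NumberField M] (l : Nat.Primes) : ℝ :=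
  (Nat.card {I : Ideal (𝓞 M) // absNorm I = (l : ℕ)} : ℝ)

/-- The analytic input (F1): `∑_l #{I : N(I) = l} · l^{-s} = log (1/(s-1)) + O(1)` as `s → 1⁺`. -/
def PrimeSumLog (M : Type*) [Field M] [NumberField M] : Prop :=
  LogAsymp (normCount M) 1

section

variable (L : Type*) [Field L] [NumberField L]
variable (G : Type*) [Group G] [Finite G] [MulSemiringAction G L] [IsGaloisGroup G ℚ L]

theorem finite_setOf_dvd_discr : {l : Nat.Primes | ((l : ℕ) : ℤ) ∣ discr L}.Finite := by
  have h0 : (discr L).natAbs ≠ 0 := Int.natAbs_ne_zero.mpr (discr_ne_zero L)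
  have h1 : ((discr L).natAbs.divisors : Set ℕ).Finite := Finset.finite_toSet _
  refine (h1.preimage (Subtype.val_injective.injOn)).subset ?_
  intro l hl
  simp only [Set.mem_preimage, Finset.mem_coe, Nat.mem_divisors]
  refine ⟨?_, h0⟩
  have hl' : ((l : ℕ) : ℤ) ∣ discr L := hl
  exact Int.natCast_dvd.mp hl'

/-- The primes dividing the discriminant. -/
noncomputable def badPrimes : Finset Nat.Primes := (finite_setOf_dvd_discr L).toFinset

theorem mem_badPrimes (l : Nat.Primes) : l ∈ badPrimes L ↔ ((l : ℕ) : ℤ) ∣ discr L := by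
  unfold badPrimes
  rw [Set.Finite.mem_toFinset]
  exact Iff.rfl

variable (l : ℕ) [hl : Fact l.Prime]

local notation "𝔩" => (Ideal.span {(l : ℤ)} : Ideal ℤ)

variable {L l} in
theorem isUnramifiedAt_of_not_dvd_discr (h : ¬ (l : ℤ) ∣ discr L) (Q : Ideal (𝓞 L)) [Q.IsPrime]
    [Q.LiesOver 𝔩] : Algebra.IsUnramifiedAt ℤ Q :=
  (not_dvd_discr_iff_forall_liesOver L (𝓞 L) (Nat.prime_iff_prime_int.mp hl.out)).mp h Q
    (isMaximal_of_liesOver (l := l) Q) inferInstance

variable {L l} in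
include G in
theorem ramificationIdxIn_eq_one_of_not_dvd_discr (h : ¬ (l : ℤ) ∣ discr L) :
    (𝔩).ramificationIdxIn (𝓞 L) = 1 := by
  obtain ⟨⟨Q, hQ1, hQ2⟩⟩ := (inferInstance : Nonempty (primesOver 𝔩 (𝓞 L)))
  haveI := hQ1
  haveI := hQ2
  rw [ramificationIdxIn_eq_ramificationIdx 𝔩 Q G]
  haveI : Q.LiesOver (Q.under ℤ) := ⟨rfl⟩
  exact ramificationIdx_eq_one_iff.mpr (isUnramifiedAt_of_not_dvd_discr (l := l) h Q)

attribute [local instance] fintypePrimesOver

include G in
theorem card_primesOver_le : Fintype.card (primesOver 𝔩 (𝓞 L)) ≤ Nat.card G := by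
  have h := ncard_primesOver_mul_ramificationIdxIn_mul_inertiaDegIn 𝔩 (𝓞 L) G
  rw [← Nat.card_eq_fintype_card, Nat.card_coe_set_eq]
  exact Nat.le_of_dvd Nat.card_pos ⟨_, h.symm⟩

end

section main

variable (L : Type*) [Field L] [NumberField L]
variable (G : Type*) [Group G] [Finite G] [MulSemiringAction G L] [IsGaloisGroup G ℚ L]

attribute [local instance] fintypePrimesOver

/-- The weights `d · #{Q ∣ l : D_Q ≤ ⟨g⟩, |D_Q| = d}` as real functions on the primes. -/
noncomputable def wt (g : G) (d : ℕ) (l : Nat.Primes) : ℝ :=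
  haveI : Fact (l : ℕ).Prime := ⟨l.2⟩
  (stabWeight (X := primesOver (Ideal.span {((l : ℕ) : ℤ)} : Ideal ℤ) (𝓞 L)) g d : ℝ)

theorem bddCoeff_wt (g : G) (d : ℕ) : BddCoeff (wt L G g d) := by
  refine ⟨(Nat.card G * Nat.card G : ℕ), fun l => ?_⟩
  haveI : Fact (l : ℕ).Prime := ⟨l.2⟩
  unfold wt
  rw [abs_of_nonneg (Nat.cast_nonneg _)]
  refine Nat.cast_le.mpr ((stabWeight_le g d).trans ?_)
  exact Nat.mul_le_mul_left _ (card_primesOver_le L G (l : ℕ))

/-- The fixed field of the subgroup of order `m` of `⟨g⟩`. -/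
noncomputable abbrev cycField (g : G) (m : ℕ) : IntermediateField ℚ L :=
  FixedPoints.intermediateField (cycSub g m)

/-- The coefficient functions `m · #{I ⊆ 𝓞 (L^{C_m}) : N(I) = l}`. -/
noncomputable def cf (g : G) (m : ℕ) (l : Nat.Primes) : ℝ :=
  (m : ℝ) * normCount (cycField L G g m) l

theorem normCount_cycField_eq (g : G) {m : ℕ} (hm : m ∣ orderOf g) (l : Nat.Primes)
    (hl : l ∉ badPrimes L) :
    cf L G g m l = ∑ d ∈ m.divisors, wt L G g d l := by
  haveI : Fact (l : ℕ).Prime := ⟨l.2⟩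
  have hram : (Ideal.span {((l : ℕ) : ℤ)} : Ideal ℤ).ramificationIdxIn (𝓞 L) = 1 :=
    ramificationIdxIn_eq_one_of_not_dvd_discr G (fun h => hl ((mem_badPrimes L l).mpr h))
  have := mul_card_absNorm_eq_sum_stabWeight L G (cycField L G g m) (l : ℕ) g hm hram
  unfold cf normCount wt
  exact_mod_cast this

/-- **Frobenius' theorem (existence form), number field level**, conditional on the analytic
input (F1) for the subfields of `L`. -/
theorem exists_isArithFrobAt_zpowers_eq
    (hF1 : ∀ M : IntermediateField ℚ L, PrimeSumLog M) (g : G) (S : Finset ℕ) :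
    ∃ (l : ℕ) (_ : l.Prime) (Q : Ideal (𝓞 L)) (_ : Q.IsPrime)
      (_ : Q.LiesOver (Ideal.span {(l : ℤ)})) (τ : G),
      l ∉ S ∧ ¬ ((l : ℤ) ∣ discr L) ∧
      (Ideal.span {(l : ℤ)} : Ideal ℤ).ramificationIdxIn (𝓞 L) = 1 ∧
      Algebra.IsUnramifiedAt ℤ Q ∧ IsArithFrobAt ℤ τ Q ∧
      stabilizer G Q = Subgroup.zpowers g ∧ Subgroup.zpowers τ = Subgroup.zpowers g := by
  classical
  have hn : 0 < orderOf g := orderOf_pos g
  have hcw : ∀ m, m ∣ orderOf g → ∀ l ∉ badPrimes L,
      cf L G g m l = ∑ d ∈ m.divisors, wt L G g d l :=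
    fun m hm l hl => normCount_cycField_eq L G g hm l hl
  have hcb : ∀ m, m ∣ orderOf g → BddCoeff (cf L G g m) :=
    fun m hm => BddCoeff.of_eq_outside (BddCoeff.sum _ _ (fun d _ => bddCoeff_wt L G g d))
      (badPrimes L) (hcw m hm)
  have hc : ∀ m, m ∣ orderOf g → LogAsymp (cf L G g m) m := by
    intro m _
    have := (hF1 (cycField L G g m)).const_mul (m : ℝ)
    rw [mul_one] at this
    exact this
  obtain ⟨l, hlS, hlB, hw⟩ := exists_prime_of_divisor_sums (orderOf g) hn (wt L G g)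
    (bddCoeff_wt L G g) (cf L G g) hcb (badPrimes L) hcw hc (S.subtype Nat.Prime)
  haveI : Fact (l : ℕ).Prime := ⟨l.2⟩
  have hdisc : ¬ (((l : ℕ) : ℤ) ∣ discr L) := fun h => hlB ((mem_badPrimes L l).mpr h)
  have hram : (Ideal.span {((l : ℕ) : ℤ)} : Ideal ℤ).ramificationIdxIn (𝓞 L) = 1 :=
    ramificationIdxIn_eq_one_of_not_dvd_discr G hdisc
  have hw' : stabWeight (X := primesOver (Ideal.span {((l : ℕ) : ℤ)} : Ideal ℤ) (𝓞 L)) g
      (orderOf g) ≠ 0 := by
    intro h0
    apply hw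
    unfold wt
    rw [h0, Nat.cast_zero]
  obtain ⟨Q, hQ⟩ := exists_stabilizer_eq_of_stabWeight_ne_zero g hw'
  haveI := Q.2.1
  haveI := Q.2.2
  obtain ⟨τ, hτ⟩ := exists_isArithFrobAt (G := G) (l : ℕ) Q.1
  have hstab : stabilizer G Q.1 = Subgroup.zpowers g := by
    rw [← stabilizer_primesOver_eq]; exact hQ
  refine ⟨(l : ℕ), l.2, Q.1, Q.2.1, Q.2.2, τ, ?_, hdisc, hram,
    isUnramifiedAt_of_not_dvd_discr (l := (l : ℕ)) hdisc Q.1, hτ, hstab, ?_⟩
  · intro h
    exact hlS (Finset.mem_subtype.mpr h)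
  · rw [zpowers_eq_stabilizer_of_isArithFrobAt (l : ℕ) hram Q.1 τ hτ, hstab]

end main

end Fermat.Agent.Lib.Frob.H644
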