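import Mathlib

/-!
# FROB, piece (O), group-theoretic part: orbit counting

`G` a finite group acting on a finite set `X`, `H ≤ G`, and `π : X → Z` a surjection whose fibres
are the `H`-orbits.  Then
`|H| · #{z : the points above z have stabiliser ≤ H} = ∑_{x, Stab x ≤ H} |Stab x|`.

For a cyclic subgroup `⟨g⟩` of order `n` and `H = ⟨g^(n/m)⟩` (`m ∣ n`) the right hand side is
`∑_{d ∣ m} d · #{x : Stab x ≤ ⟨g⟩, |Stab x| = d}`.
-/

set_option autoImplicit false

namespace Fermat.Agent.Lib.Frob.H644

open MulAction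

section general

variable {G X Z : Type*} [Group G] [MulAction G X]

theorem card_stabilizer_subgroup_of_le (H : Subgroup G) (x : X) (h : stabilizer G x ≤ H) :
    Nat.card (stabilizer H x) = Nat.card (stabilizer G x) := by
  refine Nat.card_congr
    { toFun := fun a => ⟨(a.1 : G), by
        have := a.2
        rw [mem_stabilizer_iff] at this ⊢
        rwa [Subgroup.smul_def] at this⟩
      invFun := fun b => ⟨⟨b.1, h b.2⟩, by
        have := b.2
        rw [mem_stabilizer_iff] at this ⊢
        rwa [Subgroup.smul_def]⟩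
      left_inv := fun a => rfl
      right_inv := fun b => rfl }

theorem card_orbit_mul_card_stabilizer (H : Subgroup G) (x : X) :
    Nat.card (orbit H x) * Nat.card (stabilizer H x) = Nat.card H := by
  rw [← Nat.card_prod]
  exact Nat.card_congr (MulAction.orbitProdStabilizerEquivGroup H x)

theorem card_stabilizer_smul (g : G) (x : X) :
    Nat.card (stabilizer G (g • x)) = Nat.card (stabilizer G x) := by
  rw [stabilizer_smul_eq_stabilizer_map_conj]
  exact Nat.card_congr
    ((stabilizer G x).equivMapOfInjective _ (MulAut.conj g).injective).symm.toEquiv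

open Classical in
/-- **Orbit counting.** -/
theorem card_mul_card_eq_sum_stabilizer [Fintype X] [Fintype Z]
    (H : Subgroup G) (π : X → Z) (hπ : Function.Surjective π)
    (hfib : ∀ x y, π x = π y ↔ ∃ h : H, h • x = y) (P : Z → Prop)
    (hP : ∀ x, P (π x) ↔ stabilizer G x ≤ H) :
    Nat.card H * (Finset.univ.filter P).card =
      ∑ x : X, if stabilizer G x ≤ H then Nat.card (stabilizer G x) else 0 := by
  rw [← Finset.sum_fiberwise_of_maps_to (s := (Finset.univ : Finset X))
    (t := (Finset.univ : Finset Z)) (g := π) (fun _ _ => Finset.mem_univ _)]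
  have key : ∀ z : Z, (∑ x ∈ (Finset.univ : Finset X) with π x = z,
      if stabilizer G x ≤ H then Nat.card (stabilizer G x) else 0) =
      if P z then Nat.card H else 0 := by
    intro z
    obtain ⟨x₀, rfl⟩ := hπ z
    by_cases hz : P (π x₀)
    · rw [if_pos hz]
      have hx₀ : stabilizer G x₀ ≤ H := (hP x₀).mp hz
      have h1 : ∀ x ∈ (Finset.univ : Finset X).filter (fun x => π x = π x₀),
          (if stabilizer G x ≤ H then Nat.card (stabilizer G x) else 0) =
            Nat.card (stabilizer G x₀) := by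
        intro x hx
        rw [Finset.mem_filter] at hx
        have hx' : P (π x) := by rw [hx.2]; exact hz
        rw [if_pos ((hP x).mp hx')]
        obtain ⟨h, rfl⟩ := (hfib x₀ x).mp hx.2.symm
        rw [Subgroup.smul_def, card_stabilizer_smul]
      rw [Finset.sum_congr rfl h1, Finset.sum_const, smul_eq_mul]
      have h2 : ((Finset.univ : Finset X).filter (fun x => π x = π x₀)).card =
          Nat.card (orbit H x₀) := by
        have hset : (((Finset.univ : Finset X).filter (fun x => π x = π x₀) : Finset X) : Set X)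
            = orbit H x₀ := by
          ext x
          simp only [Finset.coe_filter, Finset.mem_univ, true_and, Set.mem_ofPred_eq,
            mem_orbit_iff]
          rw [eq_comm, hfib]
        rw [← Set.ncard_coe_finset, hset, Nat.card_coe_set_eq]
      rw [h2, ← card_stabilizer_subgroup_of_le H x₀ hx₀]
      exact card_orbit_mul_card_stabilizer H x₀
    · rw [if_neg hz]
      refine Finset.sum_eq_zero (fun x hx => ?_)
      rw [Finset.mem_filter] at hx
      have hx' : ¬ P (π x) := by rw [hx.2]; exact hz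
      rw [if_neg (fun h => hx' ((hP x).mpr h))]
  rw [Finset.sum_congr rfl (fun z _ => key z), Finset.sum_ite, Finset.sum_const_zero, add_zero,
    Finset.sum_const, smul_eq_mul, mul_comm]

end general

section cyclic

variable {G X : Type*} [Group G] [Finite G] [MulAction G X]

/-- The subgroup of order `m` of the cyclic group generated by `g` (for `m ∣ orderOf g`). -/
noncomputable def cycSub (g : G) (m : ℕ) : Subgroup G := Subgroup.zpowers (g ^ (orderOf g / m))

theorem card_cycSub (g : G) {m : ℕ} (hm : m ∣ orderOf g) : Nat.card (cycSub g m) = m := by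
  have hpos : 0 < orderOf g := orderOf_pos g
  have hm0 : 0 < m := Nat.pos_of_dvd_of_pos hm hpos
  unfold cycSub
  rw [Nat.card_zpowers, orderOf_pow_of_dvd (Nat.div_pos (Nat.le_of_dvd hpos hm) hm0).ne'
    (Nat.div_dvd_of_dvd hm), Nat.div_div_self hm hpos.ne']

omit [Finite G] in
theorem cycSub_le (g : G) (m : ℕ) : cycSub g m ≤ Subgroup.zpowers g := by
  unfold cycSub
  rw [Subgroup.zpowers_le]
  exact Subgroup.pow_mem _ (Subgroup.mem_zpowers g) _

theorem cycSub_self (g : G) : cycSub g (orderOf g) = Subgroup.zpowers g := by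
  unfold cycSub
  rw [Nat.div_self (orderOf_pos g), pow_one]

theorem mem_cycSub_of_pow_eq_one (g : G) {m : ℕ} (hm : m ∣ orderOf g) {k : G}
    (hk : k ∈ Subgroup.zpowers g) (hkm : k ^ m = 1) : k ∈ cycSub g m := by
  have hpos : 0 < orderOf g := orderOf_pos g
  have hm0 : 0 < m := Nat.pos_of_dvd_of_pos hm hpos
  obtain ⟨a, rfl⟩ := Subgroup.mem_zpowers_iff.mp hk
  -- `orderOf g ∣ a * m`
  have h1 : (orderOf g : ℤ) ∣ a * m := by
    rw [orderOf_dvd_iff_zpow_eq_one, zpow_mul]
    exact_mod_cast hkm
  obtain ⟨q, hq⟩ := hm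
  have hq0 : 0 < q := by
    rcases Nat.eq_zero_or_pos q with h | h
    · rw [h, mul_zero] at hq; omega
    · exact h
  have h2 : (q : ℤ) ∣ a := by
    rw [hq] at h1
    push_cast at h1
    rw [mul_comm a] at h1
    exact Int.dvd_of_mul_dvd_mul_left (by exact_mod_cast hm0.ne') h1
  obtain ⟨b, rfl⟩ := h2
  unfold cycSub
  have h3 : orderOf g / m = q := by
    rw [hq]; exact Nat.mul_div_cancel_left q hm0
  rw [h3, Subgroup.mem_zpowers_iff]
  refine ⟨b, ?_⟩
  rw [← zpow_natCast, ← zpow_mul]

/-- A subgroup `K ≤ ⟨g⟩` lies in the subgroup of order `m` iff `|K| ∣ m`. -/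
theorem le_cycSub_iff (g : G) {m : ℕ} (hm : m ∣ orderOf g) (K : Subgroup G) :
    K ≤ cycSub g m ↔ K ≤ Subgroup.zpowers g ∧ Nat.card K ∣ m := by
  constructor
  · intro h
    refine ⟨h.trans (cycSub_le g m), ?_⟩
    have := Subgroup.card_dvd_of_le h
    rwa [card_cycSub g hm] at this
  · rintro ⟨h1, h2⟩ k hk
    refine mem_cycSub_of_pow_eq_one g hm (h1 hk) ?_
    obtain ⟨c, hc⟩ := h2
    have h3 : (⟨k, hk⟩ : K) ^ Nat.card K = 1 := pow_card_eq_one'
    have h4 : k ^ Nat.card K = 1 := by
      have := congrArg (fun z : K => (z : G)) h3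
      simp only [Subgroup.coe_pow, Subgroup.coe_one] at this
      exact this
    rw [hc, pow_mul, h4, one_pow]

open Classical in
/-- The weights of the density induction: `d · #{x : Stab x ≤ ⟨g⟩, |Stab x| = d}`. -/
noncomputable def stabWeight [Fintype X] (g : G) (d : ℕ) : ℕ :=
  d * ((Finset.univ : Finset X).filter
    (fun x => stabilizer G x ≤ Subgroup.zpowers g ∧ Nat.card (stabilizer G x) = d)).card

open Classical in
theorem sum_stabilizer_le_cycSub [Fintype X] (g : G) {m : ℕ} (hm : m ∣ orderOf g) :
    (∑ x : X, if stabilizer G x ≤ cycSub g m then Nat.card (stabilizer G x) else 0) =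
      ∑ d ∈ m.divisors, stabWeight (X := X) g d := by
  have hpos : 0 < orderOf g := orderOf_pos g
  have hm0 : 0 < m := Nat.pos_of_dvd_of_pos hm hpos
  unfold stabWeight
  simp_rw [Finset.card_filter, Finset.mul_sum]
  rw [Finset.sum_comm]
  refine Finset.sum_congr rfl (fun x _ => ?_)
  by_cases hx : stabilizer G x ≤ cycSub g m
  · rw [if_pos hx]
    obtain ⟨h1, h2⟩ := (le_cycSub_iff g hm _).mp hx
    rw [Finset.sum_eq_single (Nat.card (stabilizer G x))]
    · simp [h1]
    · intro d _ hd
      rw [if_neg (fun h => hd h.2.symm), mul_zero]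
    · intro h
      exact absurd (Nat.mem_divisors.mpr ⟨h2, hm0.ne'⟩) h
  · rw [if_neg hx]
    symm
    refine Finset.sum_eq_zero (fun d hd => ?_)
    rw [Nat.mem_divisors] at hd
    have : ¬ (stabilizer G x ≤ Subgroup.zpowers g ∧ Nat.card (stabilizer G x) = d) := by
      rintro ⟨h1, h2⟩
      exact hx ((le_cycSub_iff g hm _).mpr ⟨h1, h2 ▸ hd.1⟩)
    rw [if_neg this, mul_zero]

open Classical in
theorem exists_stabilizer_eq_of_stabWeight_ne_zero [Fintype X] (g : G)
    (h : stabWeight (X := X) g (orderOf g) ≠ 0) :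
    ∃ x : X, stabilizer G x = Subgroup.zpowers g := by
  unfold stabWeight at h
  have h1 := (Nat.mul_ne_zero_iff.mp h).2
  obtain ⟨x, hx⟩ := Finset.card_ne_zero.mp h1
  rw [Finset.mem_filter] at hx
  refine ⟨x, Subgroup.eq_of_le_of_card_ge hx.2.1 ?_⟩
  rw [hx.2.2, Nat.card_zpowers]

open Classical in
theorem stabWeight_le [Fintype X] (g : G) (d : ℕ) :
    stabWeight (X := X) g d ≤ Nat.card G * Fintype.card X := by
  unfold stabWeight
  by_cases h : ((Finset.univ : Finset X).filter
    (fun x => stabilizer G x ≤ Subgroup.zpowers g ∧ Nat.card (stabilizer G x) = d)).card = 0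
  · rw [h, mul_zero]; exact Nat.zero_le _
  · obtain ⟨x, hx⟩ := Finset.card_ne_zero.mp h
    rw [Finset.mem_filter] at hx
    have hd : d ≤ Nat.card G := by
      rw [← hx.2.2]
      exact Nat.le_of_dvd Nat.card_pos (Subgroup.card_subgroup_dvd_card _)
    exact Nat.mul_le_mul hd (Finset.card_le_univ _)

end cyclic

end Fermat.Agent.Lib.Frob.H644
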