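import Fermat.Agent.Lib.Frob.H644.Orbit

/-!
# FROB, piece (O), number-theoretic part

`L` a number field with a finite group `G` acting such that `IsGaloisGroup G ℚ L`, `H ≤ G` and `M`
a number field with `IsGaloisGroup H M L` (i.e. `M = L^H`).  For a prime number `l` unramified in
`L` we prove the counting identity

`|H| · #{I ⊆ 𝓞 M : N(I) = l} = ∑_{Q ∣ l in 𝓞 L, Stab_G Q ≤ H} |Stab_G Q|`.
-/

set_option autoImplicit false
set_option linter.unusedSectionVars false
set_option linter.style.haveILetI false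
set_option warn.classDefReducibility false

namespace Fermat.Agent.Lib.Frob.H644

open NumberField Ideal MulAction
open scoped Pointwise

section tower

variable (L : Type*) [Field L] [NumberField L]
variable (G : Type*) [Group G] [Finite G] [MulSemiringAction G L] [IsGaloisGroup G ℚ L]
variable (M : Type*) [Field M] [NumberField M] [Algebra M L]
variable (H : Subgroup G) [IsGaloisGroup H M L]

/-- The Galois group instance on rings of integers for the subgroup action. -/
theorem isGaloisGroup_subgroup_ringOfIntegers : IsGaloisGroup H (𝓞 M) (𝓞 L) :=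
  IsGaloisGroup.of_isFractionRing H (𝓞 M) (𝓞 L) M L

variable (l : ℕ) [hl : Fact l.Prime]

local notation "𝔩" => (Ideal.span {(l : ℤ)} : Ideal ℤ)

instance isMaximal_span_prime : (𝔩).IsMaximal := Int.ideal_span_isMaximal_of_prime l

theorem span_prime_ne_bot : (𝔩) ≠ ⊥ := by
  rw [Ne, Ideal.span_singleton_eq_bot]
  exact_mod_cast hl.out.ne_zero

instance finite_primesOver_L : Finite (primesOver 𝔩 (𝓞 L)) :=
  (Algebra.QuasiFinite.finite_primesOver 𝔩).to_subtype

variable {L l} in
/-- A prime of `𝓞 L` over `l` is maximal. -/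
theorem isMaximal_of_liesOver (Q : Ideal (𝓞 L)) [Q.IsPrime] [Q.LiesOver 𝔩] : Q.IsMaximal :=
  Ideal.IsMaximal.of_liesOver_isMaximal Q 𝔩

variable {L l} in
/-- The norm of a prime over `l` is `l` iff its inertia degree is one. -/
theorem absNorm_eq_prime_iff (P : Ideal (𝓞 L)) [P.IsPrime] [P.LiesOver 𝔩] :
    absNorm P = l ↔ P.inertiaDeg ℤ = 1 := by
  haveI := isMaximal_of_liesOver (l := l) P
  rw [absNorm_eq_pow_inertiaDeg' (p := l) P hl.out, inertiaDeg'_eq_inertiaDeg]
  constructor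
  · intro h
    have h1 : l ^ P.inertiaDeg ℤ = l ^ 1 := by rw [h, pow_one]
    exact Nat.pow_right_injective hl.out.two_le h1
  · intro h
    rw [h, pow_one]

variable {L l} in
/-- An ideal of norm `l` is a prime over `l`. -/
theorem isPrime_liesOver_of_absNorm_eq (I : Ideal (𝓞 L)) (h : absNorm I = l) :
    I.IsPrime ∧ I.LiesOver 𝔩 := by
  have hI : I.IsPrime :=
    isPrime_of_irreducible_absNorm (h ▸ Nat.prime_iff.mp hl.out |>.irreducible)
  refine ⟨hI, ⟨?_⟩⟩
  have h1 : (𝔩) ≤ I.under ℤ := by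
    rw [Ideal.span_le, Set.singleton_subset_iff]
    show algebraMap ℤ (𝓞 L) (l : ℤ) ∈ I
    have := absNorm_mem I
    rw [h] at this
    simpa using this
  have h2 : I.under ℤ ≠ ⊤ := (Ideal.IsPrime.under ℤ I).ne_top
  exact (isMaximal_span_prime l).eq_of_le h2 h1

/-- Ideals of norm `l` are the primes over `l` of inertia degree one. -/
noncomputable def normEqEquiv :
    {I : Ideal (𝓞 L) // absNorm I = l} ≃
      {P : primesOver 𝔩 (𝓞 L) // absNorm P.1 = l} where
  toFun I := ⟨⟨I.1, (isPrime_liesOver_of_absNorm_eq I.1 I.2).1,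
    (isPrime_liesOver_of_absNorm_eq I.1 I.2).2⟩, I.2⟩
  invFun P := ⟨P.1.1, P.2⟩
  left_inv _ := rfl
  right_inv _ := rfl

end tower

section counting

variable (L : Type*) [Field L] [NumberField L]
variable (G : Type*) [Group G] [Finite G] [MulSemiringAction G L] [IsGaloisGroup G ℚ L]
variable (M : Type*) [Field M] [NumberField M] [Algebra M L]
variable (H : Subgroup G) [IsGaloisGroup H M L]
variable (l : ℕ) [hl : Fact l.Prime]

local notation "𝔩" => (Ideal.span {(l : ℤ)} : Ideal ℤ)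

variable {L G l} in
theorem stabilizer_primesOver_eq (Q : primesOver 𝔩 (𝓞 L)) :
    stabilizer G Q = stabilizer G (Q.1 : Ideal (𝓞 L)) := by
  ext σ
  rw [mem_stabilizer_iff, mem_stabilizer_iff, ← coe_smul_primesOver, Subtype.ext_iff]

/-- The restriction map from primes of `𝓞 L` over `l` to primes of `𝓞 M` over `l`. -/
noncomputable def underMap (Q : primesOver 𝔩 (𝓞 L)) : primesOver 𝔩 (𝓞 M) :=
  ⟨Q.1.under (𝓞 M),
    haveI := Q.2.1
    Ideal.IsPrime.under (𝓞 M) Q.1,
    haveI := Q.2.2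
    haveI : Q.1.LiesOver (Q.1.under (𝓞 M)) := ⟨rfl⟩
    LiesOver.tower_bot Q.1 (Q.1.under (𝓞 M)) 𝔩⟩

theorem underMap_surjective : Function.Surjective (underMap L M l) := by
  rintro ⟨P, hP1, hP2⟩
  haveI := hP1
  haveI := hP2
  obtain ⟨⟨Q, hQ1, hQ2⟩⟩ := (inferInstance : Nonempty (primesOver P (𝓞 L)))
  haveI := hQ1
  haveI := hQ2
  haveI : Q.LiesOver 𝔩 := LiesOver.trans Q P 𝔩
  refine ⟨⟨Q, hQ1, inferInstance⟩, ?_⟩
  apply Subtype.ext
  show Q.under (𝓞 M) = P
  exact (over_def Q P).symm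

include G in
theorem underMap_eq_iff (Q Q' : primesOver 𝔩 (𝓞 L)) :
    underMap L M l Q = underMap L M l Q' ↔ ∃ h : H, h • Q = Q' := by
  haveI := isGaloisGroup_subgroup_ringOfIntegers L G M H
  haveI := Q.2.1
  haveI := Q'.2.1
  constructor
  · intro h
    have h1 : Q.1.under (𝓞 M) = Q'.1.under (𝓞 M) := congrArg Subtype.val h
    haveI : Q.1.LiesOver (Q.1.under (𝓞 M)) := ⟨rfl⟩
    haveI : Q'.1.LiesOver (Q.1.under (𝓞 M)) := ⟨h1⟩
    obtain ⟨σ, hσ⟩ := exists_smul_eq_of_isGaloisGroup (Q.1.under (𝓞 M)) Q.1 Q'.1 H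
    refine ⟨σ, Subtype.ext ?_⟩
    rw [Subgroup.smul_def, coe_smul_primesOver]
    exact hσ
  · rintro ⟨h, rfl⟩
    apply Subtype.ext
    show Q.1.under (𝓞 M) = ((h • Q : primesOver 𝔩 (𝓞 L)) : Ideal (𝓞 L)).under (𝓞 M)
    rw [Subgroup.smul_def, coe_smul_primesOver]
    exact (under_smul (𝓞 M) Q.1 (h : H)).symm

/-- A `Fintype` structure on the primes over `l`. -/
noncomputable def fintypePrimesOver : Fintype (primesOver 𝔩 (𝓞 L)) := Fintype.ofFinite _

attribute [local instance] fintypePrimesOver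

variable {L G l} in
theorem card_stabilizer_of_unramified (hram : (𝔩).ramificationIdxIn (𝓞 L) = 1)
    (Q : primesOver 𝔩 (𝓞 L)) :
    Nat.card (stabilizer G Q) = Q.1.inertiaDeg ℤ := by
  haveI := Q.2.1
  haveI := Q.2.2
  rw [stabilizer_primesOver_eq, card_stabilizer_eq 𝔩 Q.1, hram, one_mul,
    inertiaDegIn_eq_inertiaDeg 𝔩 Q.1 G]

variable {L G l} in
include G in
theorem ramificationIdx_eq_one_of_unramified (hram : (𝔩).ramificationIdxIn (𝓞 L) = 1)
    (Q : primesOver 𝔩 (𝓞 L)) : Q.1.ramificationIdx ℤ = 1 := by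
  haveI := Q.2.1
  haveI := Q.2.2
  rw [← ramificationIdxIn_eq_ramificationIdx 𝔩 Q.1 G, hram]

variable {L G l} in
theorem card_stabilizer_subgroup_of_unramified (hram : (𝔩).ramificationIdxIn (𝓞 L) = 1)
    (Q : primesOver 𝔩 (𝓞 L)) :
    Nat.card (stabilizer H Q) = Q.1.inertiaDeg (𝓞 M) := by
  haveI := isGaloisGroup_subgroup_ringOfIntegers L G M H
  haveI := Q.2.1
  haveI := Q.2.2
  haveI : Q.1.LiesOver (Q.1.under (𝓞 M)) := ⟨rfl⟩
  haveI : (Q.1.under (𝓞 M)).IsPrime := Ideal.IsPrime.under (𝓞 M) Q.1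
  have h2 : Q.1.ramificationIdx (𝓞 M) = 1 := by
    have := ramificationIdx_above_dvd (R := ℤ) (Q.1.under (𝓞 M)) Q.1
    rw [ramificationIdx_eq_one_of_unramified (G := G) hram Q] at this
    exact Nat.dvd_one.mp this
  have key := card_stabilizer_eq (G := H) (Q.1.under (𝓞 M)) Q.1
  rw [ramificationIdxIn_eq_ramificationIdx (Q.1.under (𝓞 M)) Q.1 H,
    inertiaDegIn_eq_inertiaDeg (Q.1.under (𝓞 M)) Q.1 H, h2, one_mul] at key
  rw [← key]
  refine Nat.card_congr (Equiv.subtypeEquivRight (fun σ => ?_))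
  rw [mem_stabilizer_iff, mem_stabilizer_iff, Subgroup.smul_def, Subtype.ext_iff,
    coe_smul_primesOver]
  rfl

variable {L G l} in
/-- For `l` unramified in `L`: the decomposition group of `Q ∣ l` is contained in `H` iff the
prime of `M = L^H` below `Q` has degree one. -/
theorem stabilizer_le_iff (hram : (𝔩).ramificationIdxIn (𝓞 L) = 1)
    (Q : primesOver 𝔩 (𝓞 L)) :
    stabilizer G Q ≤ H ↔ (Q.1.under (𝓞 M)).inertiaDeg ℤ = 1 := by
  haveI := Q.2.1
  haveI := Q.2.2
  haveI : Q.1.LiesOver (Q.1.under (𝓞 M)) := ⟨rfl⟩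
  have hG := card_stabilizer_of_unramified (G := G) hram Q
  have hH := card_stabilizer_subgroup_of_unramified M H hram Q
  have htower : Q.1.inertiaDeg ℤ = (Q.1.under (𝓞 M)).inertiaDeg ℤ * Q.1.inertiaDeg (𝓞 M) :=
    inertiaDeg_tower (Q.1.under (𝓞 M)) Q.1
  have hpos : 0 < Q.1.inertiaDeg (𝓞 M) := inertiaDeg_pos Q.1 (𝓞 M)
  constructor
  · intro hle
    have h1 := card_stabilizer_subgroup_of_le H Q hle
    rw [hG, hH, htower] at h1
    have h2 : (Q.1.under (𝓞 M)).inertiaDeg ℤ * Q.1.inertiaDeg (𝓞 M) =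
        1 * Q.1.inertiaDeg (𝓞 M) := by rw [one_mul]; exact h1.symm
    exact Nat.eq_of_mul_eq_mul_right hpos h2
  · intro h1
    rw [h1, one_mul] at htower
    have hcard : Nat.card (stabilizer G Q) = Nat.card (stabilizer H Q) := by
      rw [hG, hH, htower]
    have hle : (stabilizer H Q).map H.subtype ≤ stabilizer G Q := by
      rintro _ ⟨σ, hσ, rfl⟩
      rw [SetLike.mem_coe, mem_stabilizer_iff] at hσ
      rw [mem_stabilizer_iff]
      rwa [Subgroup.smul_def] at hσ
    have heq : (stabilizer H Q).map H.subtype = stabilizer G Q := by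
      refine Subgroup.eq_of_le_of_card_ge hle ?_
      rw [hcard]
      exact (Nat.card_congr ((stabilizer H Q).equivMapOfInjective H.subtype
        H.subtype_injective).toEquiv).le
    intro σ hσ
    rw [← heq] at hσ
    obtain ⟨τ, -, rfl⟩ := hσ
    exact τ.2

open Classical in
/-- **Counting identity** for a prime `l` unramified in `L`. -/
theorem card_mul_card_absNorm_eq (hram : (𝔩).ramificationIdxIn (𝓞 L) = 1) :
    Nat.card H * Nat.card {I : Ideal (𝓞 M) // absNorm I = l} =
      ∑ Q : primesOver 𝔩 (𝓞 L),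
        if stabilizer G Q ≤ H then Nat.card (stabilizer G Q) else 0 := by
  rw [← card_mul_card_eq_sum_stabilizer H (underMap L M l) (underMap_surjective L M l)
    (underMap_eq_iff L G M H l) (fun P => absNorm P.1 = l)]
  · congr 1
    rw [Nat.card_congr (normEqEquiv M l),
      @Nat.card_eq_fintype_card _ (Fintype.subtype (Finset.univ.filter
        (fun P : primesOver 𝔩 (𝓞 M) => absNorm P.1 = l)) (by simp)), Fintype.subtype_card]
    congr!
  · intro Q
    haveI := Q.2.1
    haveI := Q.2.2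
    rw [stabilizer_le_iff M H hram Q]
    haveI : ((underMap L M l Q).1).IsPrime := (underMap L M l Q).2.1
    haveI : ((underMap L M l Q).1).LiesOver 𝔩 := (underMap L M l Q).2.2
    exact absNorm_eq_prime_iff (l := l) (underMap L M l Q).1

open Classical in
/-- **Counting identity, cyclic form.**  For `g ∈ G` of order `n`, `m ∣ n` and `M` the fixed
field of the subgroup of order `m` of `⟨g⟩`. -/
theorem mul_card_absNorm_eq_sum_stabWeight (g : G) {m : ℕ} (hm : m ∣ orderOf g)
    [IsGaloisGroup (cycSub g m) M L] (hram : (𝔩).ramificationIdxIn (𝓞 L) = 1) :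
    m * Nat.card {I : Ideal (𝓞 M) // absNorm I = l} =
      ∑ d ∈ m.divisors, stabWeight (X := primesOver 𝔩 (𝓞 L)) g d := by
  rw [← sum_stabilizer_le_cycSub g hm, ← card_mul_card_absNorm_eq L G M (cycSub g m) l hram,
    card_cycSub g hm]

end counting

end Fermat.Agent.Lib.Frob.H644
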